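import Fermat.Agent.LT.T2.H973.ArchSpec

/-!
# Row LT, tower T2, sub-leaf T2.10.08.07 `BetaFormC` (helper944) -- OFF-MAIN

`betaFormC944 : Fermat.Agent.LT.T2.H973.BetaFormC` (UNCONDITIONAL: `SphereCoordC` is the hypothesis
of the Prop), VERBATIM against `LT/T2/H973/ArchSpec.lean` of helper973 (sha256 6e234a4a0ea7).

Proof: the mean value property of `f` at `h = t(eˢ)` for the family
`Y α β = rotZ α * rotY β * torus d` (an element of `GL₂(ℂ)`: the determinant is `1`), `R1` under
the integral, Fubini on the rectangle `[0, 2π] × [0, π]` (the integrand is continuous in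
`(α, β)`), and `∫₀^{2π} χ(ρ e^{iα}) dα = 2π J(|c| ρ)` (`Re(c̄ ρ e^{iα}) = |c| ρ cos(α - arg c)`,
periodicity).
-/

set_option autoImplicit false

open MeasureTheory
open Fermat.Agent.LT.H556.A0
open scoped ComplexConjugate

noncomputable section

namespace Fermat.Agent.LT.T2.H973

/-! ## 1. Continuity of `s ↦ t(eˢ)` -/

theorem continuous_tE944 : Continuous tE := by
  rw [Units.continuous_iff]
  constructor
  · have h : (Units.val ∘ tE) = fun s : ℝ =>
        (!![((Real.exp s : ℝ) : ℂ), 0; 0, 1] : Matrix (Fin 2) (Fin 2) ℂ) := by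
      funext s; rfl
    rw [h]
    refine continuous_matrix (fun i j => ?_)
    fin_cases i <;> fin_cases j
    · exact Complex.continuous_ofReal.comp Real.continuous_exp
    · exact continuous_const
    · exact continuous_const
    · exact continuous_const
  · have h : (fun s : ℝ => (((tE s)⁻¹ : GL (Fin 2) ℂ) : Matrix (Fin 2) (Fin 2) ℂ))
        = fun s : ℝ =>
          (!![(((Real.exp s : ℝ) : ℂ))⁻¹, 0; 0, 1] : Matrix (Fin 2) (Fin 2) ℂ) := by
      funext s
      show (!![(((expU s)⁻¹ : ℂˣ) : ℂ), 0; 0, 1] : Matrix (Fin 2) (Fin 2) ℂ) = _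
      rw [Units.val_inv_eq_inv_val]
      rfl
    rw [h]
    refine continuous_matrix (fun i j => ?_)
    fin_cases i <;> fin_cases j
    · exact (Complex.continuous_ofReal.comp Real.continuous_exp).inv₀
        (fun s => by
          simp only [Function.comp_apply, ne_eq, Complex.ofReal_eq_zero]
          exact (Real.exp_pos s).ne')
    · exact continuous_const
    · exact continuous_const
    · exact continuous_const

/-! ## 2. The family `Y` -/

theorem det_rotZ944 (α : ℝ) : (rotZ α).det = 1 := by
  unfold rotZ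
  rw [Matrix.det_fin_two_of, ← Complex.exp_add]
  simp

theorem det_rotY944 (β : ℝ) : (rotY β).det = 1 := by
  unfold rotY
  rw [Matrix.det_fin_two_of]
  have h := Real.cos_sq_add_sin_sq (β / 2)
  have h' : ((Real.cos (β / 2) : ℝ) : ℂ) ^ 2 + ((Real.sin (β / 2) : ℝ) : ℂ) ^ 2 = 1 := by
    exact_mod_cast h
  linear_combination h'

theorem det_torus944 (d : ℝ) : (torus d).det = 1 := by
  unfold torus
  rw [Matrix.det_fin_two_of]
  have h : Real.exp (d / 2) * Real.exp (-(d / 2)) = 1 := by
    rw [← Real.exp_add]; simp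
  have h' : ((Real.exp (d / 2) : ℝ) : ℂ) * ((Real.exp (-(d / 2)) : ℝ) : ℂ) = 1 := by
    exact_mod_cast h
  linear_combination h'

theorem det_sphere944 (α β d : ℝ) : (rotZ α * rotY β * torus d).det ≠ 0 := by
  rw [Matrix.det_mul, Matrix.det_mul, det_rotZ944, det_rotY944, det_torus944]
  simp

/-- The point `k(α, β) a_d` of the geodesic sphere, as an element of `GL₂(ℂ)`. -/
def sphereY944 (d α β : ℝ) : GL (Fin 2) ℂ :=
  Matrix.GeneralLinearGroup.mkOfDetNeZero (rotZ α * rotY β * torus d) (det_sphere944 α β d)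

theorem sphereY944_coe (d α β : ℝ) :
    (sphereY944 d α β : Matrix (Fin 2) (Fin 2) ℂ) = rotZ α * rotY β * torus d := rfl

/-! ## 3. The integral over `α` -/

theorem continuous_chiOf944 (c : ℂ) : Continuous (chiOf c) := by
  unfold chiOf
  exact Complex.continuous_exp.comp (continuous_const.mul
    (Complex.continuous_ofReal.comp (Complex.continuous_re.comp
      (continuous_const.mul continuous_id))))

theorem chiOf_polar944 (c : ℂ) (ρ α : ℝ) :
    chiOf c (((ρ : ℝ) : ℂ) * Complex.exp (Complex.I * (α : ℂ)))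
      = Complex.exp (Complex.I *
          ((‖c‖ * ρ * Real.cos (α - Complex.arg c) : ℝ) : ℂ)) := by
  unfold chiOf
  have hre : (Complex.exp (Complex.I * (α : ℂ))).re = Real.cos α := by
    rw [mul_comm]; exact Complex.exp_ofReal_mul_I_re α
  have him : (Complex.exp (Complex.I * (α : ℂ))).im = Real.sin α := by
    rw [mul_comm]; exact Complex.exp_ofReal_mul_I_im α
  have h1 : (conj c * (((ρ : ℝ) : ℂ) * Complex.exp (Complex.I * (α : ℂ)))).re
      = ‖c‖ * ρ * Real.cos (α - Complex.arg c) := by
    have e1 : (conj c * (((ρ : ℝ) : ℂ) * Complex.exp (Complex.I * (α : ℂ)))).re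
        = ρ * (c.re * Real.cos α + c.im * Real.sin α) := by
      simp only [Complex.mul_re, Complex.mul_im, Complex.conj_re, Complex.conj_im,
        Complex.ofReal_re, Complex.ofReal_im, hre, him]
      ring
    rw [e1, Real.cos_sub, ← Complex.norm_mul_cos_arg c, ← Complex.norm_mul_sin_arg c]
    ring
  rw [h1]

theorem integral_chiOf944 (c : ℂ) (ρ : ℝ) :
    (∫ α in (0 : ℝ)..(2 * Real.pi),
        chiOf c (((ρ : ℝ) : ℂ) * Complex.exp (Complex.I * (α : ℂ))))
      = ((2 * Real.pi : ℝ) : ℂ) * besJ (‖c‖ * ρ) := by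
  set g : ℝ → ℂ := fun α =>
    Complex.exp (Complex.I * ((‖c‖ * ρ * Real.cos α : ℝ) : ℂ)) with hg
  have hper : Function.Periodic g (2 * Real.pi) := by
    intro α
    simp only [hg, Real.cos_add_two_pi]
  have h1 : (∫ α in (0 : ℝ)..(2 * Real.pi),
        chiOf c (((ρ : ℝ) : ℂ) * Complex.exp (Complex.I * (α : ℂ))))
      = ∫ α in (0 : ℝ)..(2 * Real.pi), g (α - Complex.arg c) := by
    apply intervalIntegral.integral_congr
    intro α _
    exact chiOf_polar944 c ρ α
  have h2 : (∫ α in (0 : ℝ)..(2 * Real.pi), g (α - Complex.arg c))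
      = ∫ α in (0 : ℝ)..(2 * Real.pi), g α := by
    rw [intervalIntegral.integral_comp_sub_right]
    have e : (2 * Real.pi - Complex.arg c) = (0 - Complex.arg c) + 2 * Real.pi := by ring
    rw [e, hper.intervalIntegral_add_eq (0 - Complex.arg c) 0, zero_add]
  have h2pi : ((2 * Real.pi : ℝ) : ℂ) ≠ 0 := by
    rw [Ne, Complex.ofReal_eq_zero]
    exact (mul_pos two_pos Real.pi_pos).ne'
  rw [h1, h2]
  unfold besJ
  rw [← mul_assoc, mul_inv_cancel₀ h2pi, one_mul]

/-! ## 4. The leaf -/

theorem sphD_pos944 (β d : ℝ) : 0 < sphD β d := by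
  unfold sphD
  have h1 : Real.cos β * Real.sinh d ≤ |Real.sinh d| := by
    calc Real.cos β * Real.sinh d ≤ |Real.cos β * Real.sinh d| := le_abs_self _
      _ = |Real.cos β| * |Real.sinh d| := abs_mul _ _
      _ ≤ 1 * |Real.sinh d| :=
        mul_le_mul_of_nonneg_right (Real.abs_cos_le_one β) (abs_nonneg _)
      _ = |Real.sinh d| := one_mul _
  have h2 : |Real.sinh d| < Real.cosh d := by
    rw [abs_lt]
    constructor
    · have := Real.cosh_add_sinh d
      have h3 := Real.exp_pos d
      linarith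
    · have := Real.cosh_sub_sinh d
      have h3 := Real.exp_pos (-d)
      linarith
  linarith

theorem continuous_sphD944 (d : ℝ) : Continuous (fun β : ℝ => sphD β d) := by
  unfold sphD
  exact continuous_const.sub (Real.continuous_cos.mul continuous_const)

/-- **T2.10.08.07 `BetaFormC`.** -/
theorem betaFormC944 : BetaFormC := by
  intro hSC c χ f hχ hf
  have hF : Continuous (fun s : ℝ => f (tE s)) := hf.cont.comp continuous_tE944
  refine ⟨hF, ?_⟩
  intro s d hd
  -- the mean value property at `t(eˢ)`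
  have hmean := hf.mean d hd (sphereY944 d) (fun α β => sphereY944_coe d α β) (tE s)
  -- R1 under the integral
  set ρ : ℝ → ℝ := fun β => Real.exp s * Real.sin β * Real.sinh d / sphD β d with hρ
  set G : ℝ → ℝ → ℂ := fun α β =>
    chiOf c (((ρ β : ℝ) : ℂ) * Complex.exp (Complex.I * (α : ℂ)))
      * (f (tE (s - Real.log (sphD β d))) * ((Real.sin β : ℝ) : ℂ)) with hG
  have hint : ∀ α β : ℝ,
      f (tE s * sphereY944 d α β) * ((Real.sin β : ℝ) : ℂ) = G α β := by
    intro α β
    rw [hSC χ f hf.equiv hf.unitary hf.scalar s α β d (sphereY944 d α β)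
      (sphereY944_coe d α β), hχ]
    simp only [hG, hρ]
    ring
  simp only [hint] at hmean
  -- continuity of the integrand on the rectangle
  have hρc : Continuous ρ :=
    ((continuous_const.mul Real.continuous_sin).mul continuous_const).div
      (continuous_sphD944 d) (fun β => (sphD_pos944 β d).ne')
  have hlog : Continuous (fun β : ℝ => s - Real.log (sphD β d)) :=
    continuous_const.sub ((continuous_sphD944 d).log (fun β => (sphD_pos944 β d).ne'))
  have hGc : Continuous (Function.uncurry G) := by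
    have h1 : Continuous (fun p : ℝ × ℝ =>
        chiOf c (((ρ p.2 : ℝ) : ℂ) * Complex.exp (Complex.I * ((p.1 : ℝ) : ℂ)))) :=
      (continuous_chiOf944 c).comp
        ((Complex.continuous_ofReal.comp (hρc.comp continuous_snd)).mul
          (Complex.continuous_exp.comp
            (continuous_const.mul (Complex.continuous_ofReal.comp continuous_fst))))
    have h2 : Continuous (fun p : ℝ × ℝ =>
        f (tE (s - Real.log (sphD p.2 d))) * ((Real.sin p.2 : ℝ) : ℂ)) :=
      ((hF.comp hlog).comp continuous_snd).mul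
        (Complex.continuous_ofReal.comp (Real.continuous_sin.comp continuous_snd))
    exact h1.mul h2
  -- Fubini
  have h2pi : (0 : ℝ) ≤ 2 * Real.pi := (mul_pos two_pos Real.pi_pos).le
  have hpi : (0 : ℝ) ≤ Real.pi := Real.pi_pos.le
  have hswap : (∫ α in (0 : ℝ)..(2 * Real.pi), ∫ β in (0 : ℝ)..Real.pi, G α β)
      = ∫ β in (0 : ℝ)..Real.pi, ∫ α in (0 : ℝ)..(2 * Real.pi), G α β := by
    simp only [intervalIntegral.integral_of_le h2pi, intervalIntegral.integral_of_le hpi]
    apply integral_integral_swap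
    rw [Measure.prod_restrict]
    exact (hGc.continuousOn.integrableOn_compact
      (isCompact_Icc.prod isCompact_Icc)).mono_set
        (Set.prod_mono Set.Ioc_subset_Icc_self Set.Ioc_subset_Icc_self)
  rw [hswap] at hmean
  -- the integral over `α`
  have hinner : ∀ β : ℝ, (∫ α in (0 : ℝ)..(2 * Real.pi), G α β)
      = ((2 * Real.pi : ℝ) : ℂ) *
        (besJ (‖c‖ * Real.exp s * Real.sin β * Real.sinh d / sphD β d)
          * f (tE (s - Real.log (sphD β d))) * ((Real.sin β : ℝ) : ℂ)) := by
    intro β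
    simp only [hG]
    rw [intervalIntegral.integral_mul_const, integral_chiOf944]
    have e : ‖c‖ * ρ β = ‖c‖ * Real.exp s * Real.sin β * Real.sinh d / sphD β d := by
      simp only [hρ]; ring
    rw [e]
    ring
  simp only [hinner] at hmean
  rw [intervalIntegral.integral_const_mul] at hmean
  have h2pi' : ((2 * Real.pi : ℝ) : ℂ) ≠ 0 := by
    rw [Ne, Complex.ofReal_eq_zero]
    exact (mul_pos two_pos Real.pi_pos).ne'
  have e4 : ((4 * Real.pi * (d / Real.sinh d) : ℝ) : ℂ)
      = ((2 * Real.pi : ℝ) : ℂ) * ((2 * (d / Real.sinh d) : ℝ) : ℂ) := by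
    push_cast; ring
  rw [e4, mul_assoc] at hmean
  exact mul_left_cancel₀ h2pi' hmean

end Fermat.Agent.LT.T2.H973

end
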