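import Mathlib
import Fermat.Agent.LT.H556.A0
import Fermat.Agent.LT.T1.Spec
import Fermat.Agent.LT.T2.Spec
import Fermat.Agent.LT.T2.SpecTau
import Fermat.Agent.LT.T2.H291.OpsSpecT
import Fermat.Agent.LT.H129.HeckeLevel

/-!
# Row LT, tower T2, sub-leaf T2.27.10 `SubCommHeckeHeckeT291`: CLOSED, unconditional (helper944)

OFF-MAIN.  Sub-spec: `LT/T2/H291/OpsSpecT.lean` (helper291, sha256 c8359c85, byte-identical copy)
on `LT/T2/Spec.lean` (v3, sha256 b934629a), `LT/T2/SpecTau.lean` (sha256 4d2b0fc2),
`LT/T1/Spec.lean` (v1, sha256 e8ae48d6), `LT/H556/A0.lean` (sha256 66d3374a).  Assets: `LT/H129/*`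
of helper129 (byte-identical copies; `heckeSum_indep129`, `G_ext129`,
`inLevelGroup_of_localMaxCpt129`).  Nothing is assumed; in particular `CtxT291 K 𝔫 τ` is not used
and the type `τ` and the ray generator `r` play no role: only the right invariance of the
functions of the class under the level group `U(𝔫)` (`IsCuspT.aut.level_inv`) enters.

This is the `T`-form of the sub-leaf T2.07.10 (`SubCommHeckeHecke429`, closed by helper75 in
`LT/T2/H75/CommHeckeHecke.lean`): SAME proof.  The lemmas of helper75 are restated here (suffix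
`944`) so that this file does not import the sub-spec `LT/T2/H429/OpsSpec.lean` of `T2.Leaf07`
(which lives on an earlier version of `LT/T2/Spec.lean`).

* `mul_comm_of_isLocalAtFin_ne944` : elements supported at two DIFFERENT finite places commute;
* `isHeckeCosetSystem_image944` : the left translate `u H` of a Hecke coset system at `v` by an
  element `u` of `GL₂(𝒪_v)` supported at `v` is a Hecke coset system at `v`;
* `heckeSum_localInv944` : hence the Hecke sum of a function which is right invariant under the
  elements of `GL₂(𝒪_v)` supported at `v` is again right invariant under these elements;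
* `heckeSum_comm_same944` : same place, two coset systems `H`, `H'`: `T_H T_H' φ = T_H' T_H φ`
  (both are `T_H T_H φ`, by the independence of the coset system `heckeSum_indep129`);
* `heckeSum_comm_ne944` : different places: `Finset.sum_comm` and the commutation of the elements;
* `heckeSum_comm_level944` : two Hecke sums at places prime to the level commute on the
  functions which are right invariant under `U(𝔫)`;
* `subCommHeckeHeckeT944 : SubCommHeckeHeckeT291 K` (VERBATIM, registry row T2.27.10).
-/

set_option autoImplicit false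

open IsDedekindDomain NumberField IsDedekindDomain.HeightOneSpectrum
open Fermat.Agent.LT.H556.A0
open Fermat.Agent.LT.T2
open Fermat.Agent.LT.T2.H291
open Fermat.Agent.LT.H129

noncomputable section

namespace Fermat.Agent.LT.T2.H944

variable {K : Type} [Field K] [NumberField K]

/-- Elements of `G K` supported at two different finite places commute. -/
theorem mul_comm_of_isLocalAtFin_ne944 {v v' : HeightOneSpectrum (𝓞 K)} (hvv' : v ≠ v')
    {h h' : G K} (hh : IsLocalAtFin v h) (hh' : IsLocalAtFin v' h') : h * h' = h' * h := by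
  rw [isLocalAtFin_iff129] at hh hh'
  apply G_ext129
  · intro w
    rw [map_mul, map_mul, hh.1 w, hh'.1 w]
  · intro u
    rw [map_mul, map_mul]
    by_cases hu : u = v
    · have e : finCompHom129 u h' = 1 := hh'.2 u (fun e => hvv' (hu.symm.trans e))
      rw [e, mul_one, one_mul]
    · have e : finCompHom129 u h = 1 := hh.2 u hu
      rw [e, mul_one, one_mul]

/-- The determinant at `v` of an element of `GL₂(𝒪_v)` is a unit. -/
theorem valued_det_eq_one944 {v : HeightOneSpectrum (𝓞 K)} {u : G K}
    (hu : IsLocalMaxCptAt129 v u) : Valued.v (finComp v u).det = 1 := by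
  obtain ⟨-, hi, hi'⟩ := hu
  have h1 : Valued.v (finComp v u).det ≤ 1 := by
    have := det_mem_of_isInt129 (O := v.adicCompletionIntegers K) (g := finCompHom129 v u) hi
    rw [coe_finCompHom129] at this
    exact (mem_adicCompletionIntegers (K := K) (v := v)).mp this
  have h2 : Valued.v (finComp v u⁻¹).det ≤ 1 := by
    have := det_mem_of_isInt129 (O := v.adicCompletionIntegers K) (g := finCompHom129 v u⁻¹) hi'
    rw [coe_finCompHom129] at this
    exact (mem_adicCompletionIntegers (K := K) (v := v)).mp this
  have h3 : Valued.v (finComp v u).det * Valued.v (finComp v u⁻¹).det = 1 := by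
    rw [← map_mul, ← Matrix.det_mul, ← coe_finCompHom129, ← coe_finCompHom129,
      ← Matrix.GeneralLinearGroup.coe_mul, ← map_mul, mul_inv_cancel, map_one]
    simp
  refine le_antisymm h1 ?_
  by_contra hlt
  rw [not_le] at hlt
  have h4 : Valued.v (finComp v u).det * Valued.v (finComp v u⁻¹).det < 1 := by
    calc Valued.v (finComp v u).det * Valued.v (finComp v u⁻¹).det
        ≤ Valued.v (finComp v u).det * 1 := mul_le_mul_right h2 _
      _ = Valued.v (finComp v u).det := mul_one _
      _ < 1 := hlt
  rw [h3] at h4
  exact lt_irrefl _ h4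

/-- The left translate of a Hecke coset system at `v` by an element of `GL₂(𝒪_v)` supported at
`v` is a Hecke coset system at `v`. -/
theorem isHeckeCosetSystem_image944 [DecidableEq (G K)] {v : HeightOneSpectrum (𝓞 K)}
    {H : Finset (G K)} (hH : IsHeckeCosetSystem v H) {u : G K} (hu : IsLocalMaxCptAt129 v u) :
    IsHeckeCosetSystem v (H.image (fun h => u * h)) := by
  obtain ⟨hcard, hmem, hne⟩ := hH
  refine ⟨?_, ?_, ?_⟩
  · rw [Finset.card_image_of_injective _ (mul_right_injective u), hcard]
  · intro x hx
    obtain ⟨h, hh, rfl⟩ := Finset.mem_image.mp hx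
    obtain ⟨hl, hi, hd⟩ := hmem h hh
    refine ⟨isLocalAtFin_mul129 hu.1 hl, ?_, ?_⟩
    · have := isInt129_mul (O := v.adicCompletionIntegers K)
        (g := finCompHom129 v u) (h := finCompHom129 v h) hu.2.1 hi
      rw [← map_mul] at this
      exact this
    · have e : finComp v (u * h) = finComp v u * finComp v h := by
        rw [← coe_finCompHom129, map_mul, Matrix.GeneralLinearGroup.coe_mul,
          coe_finCompHom129, coe_finCompHom129]
      rw [e, Matrix.det_mul, map_mul, valued_det_eq_one944 hu, one_mul, hd]
  · intro x hx y hy hxy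
    obtain ⟨h, hh, rfl⟩ := Finset.mem_image.mp hx
    obtain ⟨h', hh', rfl⟩ := Finset.mem_image.mp hy
    have e : (u * h)⁻¹ * (u * h') = h⁻¹ * h' := by group
    rw [e]
    exact hne h hh h' hh' (fun e' => hxy (by rw [e']))

/-- The Hecke sum of a function which is right invariant under the elements of `GL₂(𝒪_v)`
supported at `v` is right invariant under these elements. -/
theorem heckeSum_localInv944 {v : HeightOneSpectrum (𝓞 K)} {H : Finset (G K)}
    (hH : IsHeckeCosetSystem v H) {M : Type*} [AddCommMonoid M] (φ : G K → M)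
    (hφ : ∀ u : G K, IsLocalMaxCptAt129 v u → ∀ g : G K, φ (g * u) = φ g)
    (u : G K) (hu : IsLocalMaxCptAt129 v u) (g : G K) :
    ∑ h ∈ H, φ (g * u * h) = ∑ h ∈ H, φ (g * h) := by
  classical
  have h1 := heckeSum_indep129 (isHeckeCosetSystem_image944 hH hu) hH φ hφ g
  rw [Finset.sum_image (fun a _ b _ e => mul_right_injective u e)] at h1
  rw [← h1]
  exact Finset.sum_congr rfl (fun h _ => by rw [mul_assoc])

/-- Same place, two coset systems: the Hecke sums commute on the functions which are right
invariant under the elements of `GL₂(𝒪_v)` supported at `v`. -/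
theorem heckeSum_comm_same944 {v : HeightOneSpectrum (𝓞 K)} {H H' : Finset (G K)}
    (hH : IsHeckeCosetSystem v H) (hH' : IsHeckeCosetSystem v H') (φ : G K → ℂ)
    (hφ : ∀ u : G K, IsLocalMaxCptAt129 v u → ∀ g : G K, φ (g * u) = φ g) :
    heckeSum H (heckeSum H' φ) = heckeSum H' (heckeSum H φ) := by
  have e : heckeSum H' φ = heckeSum H φ := by
    funext g
    exact heckeSum_indep129 hH' hH φ hφ g
  rw [e]
  funext g
  exact heckeSum_indep129 hH hH' (heckeSum H φ)
    (fun u hu g => heckeSum_localInv944 hH φ hφ u hu g) g

/-- Different places: the Hecke sums commute on all functions. -/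
theorem heckeSum_comm_ne944 {v v' : HeightOneSpectrum (𝓞 K)} (hvv' : v ≠ v')
    {H H' : Finset (G K)} (hH : IsHeckeCosetSystem v H) (hH' : IsHeckeCosetSystem v' H')
    (φ : G K → ℂ) : heckeSum H (heckeSum H' φ) = heckeSum H' (heckeSum H φ) := by
  funext g
  show ∑ h ∈ H, ∑ h' ∈ H', φ (g * h * h') = ∑ h' ∈ H', ∑ h ∈ H, φ (g * h' * h)
  rw [Finset.sum_comm]
  refine Finset.sum_congr rfl (fun h' hh' => Finset.sum_congr rfl (fun h hh => ?_))
  rw [mul_assoc, mul_assoc,
    mul_comm_of_isLocalAtFin_ne944 hvv' (hH.2.1 h hh).1 (hH'.2.1 h' hh').1]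

/-- Two Hecke sums at places prime to the level commute on the functions which are right
invariant under the level group `U(𝔫)`. -/
theorem heckeSum_comm_level944 {𝔫 : Ideal (𝓞 K)} {v v' : HeightOneSpectrum (𝓞 K)}
    (hv : ¬ v.asIdeal ∣ 𝔫) {H H' : Finset (G K)}
    (hH : IsHeckeCosetSystem v H) (hH' : IsHeckeCosetSystem v' H') (φ : G K → ℂ)
    (hφ : ∀ u : G K, InLevelGroup 𝔫 u → ∀ g : G K, φ (g * u) = φ g) :
    heckeSum H (heckeSum H' φ) = heckeSum H' (heckeSum H φ) := by
  by_cases hvv' : v = v'
  · subst hvv'
    exact heckeSum_comm_same944 hH hH' φ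
      (fun u hu => hφ u (inLevelGroup_of_localMaxCpt129 hv hu))
  · exact heckeSum_comm_ne944 hvv' hH hH' φ

/-- **T2.27.10** (`SubCommHeckeHeckeT291`, VERBATIM): two Hecke sums commute on the cusp
functions of the class `(𝔫, τ, r)`.  Unconditional. -/
theorem subCommHeckeHeckeT944 (K : Type) [Field K] [NumberField K] :
    SubCommHeckeHeckeT291 K := by
  intro 𝔫 τ _ R v hv H hH v' _ H' hH' φ hφ
  exact heckeSum_comm_level944 hv hH hH' φ hφ.aut.level_inv

end Fermat.Agent.LT.T2.H944

end
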